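import Fermat.Agent.Mazur.NoStableLine
import Fermat.Prelude.Def_EllipticCurve_ZeroComponentAt
import Fermat.Prelude.Def_FLTPrelim_Ramification

/-!
# S09, S12 and S15 from the rank zero input
-/

set_option autoImplicit false

open WeierstrassCurve WeierstrassCurve.Affine WeierstrassCurve.Affine.Point

namespace Fermat.Agent.Mazur

theorem frey_no_cofixed_of_rankZero (P : FreyPackage) [Fact P.p.Prime]
    (hB : RankZeroInput P.p) :
    ¬ HasGaloisStableCofixedLine (K := AlgebraicClosure ℚ) ℚ P.freyCurve P.p := by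
  rintro ⟨N, hst, hbot, htop, -⟩
  exact ((frey_irreducible_of_rankZero P hB).2 N hst).elim hbot htop

theorem no_rational_point_three_multiplicative {p : ℕ} [hp : Fact p.Prime] (hp3 : p ≠ 3)
    (hB : RankZeroInput p) (W : WeierstrassCurve ℤ) (hΔ : W.Δ ≠ 0)
    (Q : ((W.map (Int.castRingHom ℚ))⁄(AlgebraicClosure ℚ)).Point)
    (hQfix : ∀ σ : AlgebraicClosure ℚ ≃ₐ[ℚ] AlgebraicClosure ℚ, σ • Q = Q)
    (hQord : addOrderOf Q = p) (h3Δ : (3 : ℤ) ∣ W.Δ) (h3c₄ : ¬ (3 : ℤ) ∣ W.c₄) : False := by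
  have : Fact (Nat.Prime 3) := ⟨Nat.prime_three⟩
  have : (W.map (Int.castRingHom ℚ)).IsElliptic :=
    ⟨by rw [map_Δ, isUnit_iff_ne_zero]; simpa using hΔ⟩
  refine not_stable_of_rankZero hB (ℓ := 3) (by norm_num) (Ne.symm hp3) _
    (padicValRat_j_neg W hΔ h3Δ h3c₄) Q (by rw [← hQord]; exact addOrderOf_nsmul_eq_zero Q)
    (fun h => hp.out.ne_one ?_) fun σ => ⟨1, by rw [hQfix σ, one_nsmul]⟩
  rw [← hQord, h, addOrderOf_zero]

end Fermat.Agent.Mazur
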