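import Fermat.Agent.Mazur.Moduli.Place
import Fermat.Agent.Mazur.Immersion.Main
import Fermat.Agent.EichlerShimura.FiniteLevelX0
import Fermat.Agent.Endgame.FreyCurve
import Fermat.Agent.EC.Fifteen.Extract
import Fermat.Prelude.Def_FLTPrelim_CofixedLine

/-!
# No Galois stable line at a multiplicative prime

Given the rank zero input `RankZeroInput p` (a Hecke operator, nonzero on weight two forms, that
maps the rational points of `J₀(p)` into torsion), a curve over `ℚ` whose `j` is not integral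
at an odd prime `ℓ ≠ p` has no Galois stable subgroup of order `p`.
-/

set_option autoImplicit false

noncomputable section

open WeierstrassCurve ModularCurve AlgebraicCurve
open Fermat.Agent.Mazur.Immersion
open scoped WeierstrassCurve.Affine

namespace Fermat.Agent.Mazur

local notation "Qbar" => AlgebraicClosure ℚ

/-- The rank zero statement consumed by the formal immersion argument. -/
def RankZeroInput (p : ℕ) [NeZero p] : Prop :=
  ∃ t : HeckeAlg, formsAct p t ≠ 0 ∧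
    ∀ x : JZero p, (∀ σ : Qbar ≃ₐ[ℚ] Qbar, σ • x = x) →
      IsOfFinAddOrder (letI := heckeModuleBar p; t • x)

theorem not_stable_of_rankZero {p : ℕ} [hp : Fact p.Prime] (hB : RankZeroInput p)
    {ℓ : ℕ} [Fact ℓ.Prime] (hℓ : ℓ ≠ 2) (hℓp : ℓ ≠ p)
    (W : WeierstrassCurve ℚ) [W.IsElliptic] (hv : padicValRat ℓ W.j < 0)
    (Q : (W⁄Qbar).Point) (hQ : p • Q = 0) (hQ0 : Q ≠ 0)
    (hσ : ∀ σ : Qbar ≃ₐ[ℚ] Qbar, ∃ k : ℕ, σ • Q = k • Q) : False := by
  obtain ⟨P, a, b, hfix, hPa, hPb, hva, hvb⟩ := Moduli.exists_x0_place W Q hQ hQ0 hσ ℓ hv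
  have := EichlerShimura.isFunctionField1_modularFunctionFieldBar p
  have hdeg : Finsupp.single P (1 : ℤ) - Finsupp.single (cuspInfty p) 1 ∈
      Divisor.degZero (K := Qbar) (F := modularFunctionFieldBar p) := by
    rw [Divisor.mem_degZero, map_sub, Divisor.degree_single P, Divisor.degree_single (cuspInfty p),
      Curve.deg_eq_one P, Curve.deg_eq_one (cuspInfty p), sub_self]
  obtain ⟨t, ht, htor⟩ := hB
  refine not_isOfFinAddOrder_hecke_smul hℓ hℓp P a b hPa hPb hva hvb hdeg t ht (htor _ fun σ => ?_)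
  show arithmeticGalois (modularFunctionFieldFull p) σ • (Pic0.mk ⟨_, hdeg⟩ : JZero p) = Pic0.mk ⟨_, hdeg⟩
  rw [SemilinearAut.pic0_smul_mk]
  refine congrArg Pic0.mk (Subtype.ext ?_)
  rw [SemilinearAut.coe_degZeroSMulHom, smul_sub, SemilinearAut.smul_single,
    SemilinearAut.smul_single, hfix σ]
  exact congrArg (fun v => Finsupp.single P (1 : ℤ) - Finsupp.single v 1)
    (EichlerShimura.smul_cuspPlace (modularFunctionFieldFull p) σ)

theorem padicValRat_j_neg (W : WeierstrassCurve ℤ) (hΔ : W.Δ ≠ 0)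
    [(W.map (Int.castRingHom ℚ)).IsElliptic] {ℓ : ℕ} [hl : Fact ℓ.Prime] (h1 : (ℓ : ℤ) ∣ W.Δ)
    (h2 : ¬(ℓ : ℤ) ∣ W.c₄) : padicValRat ℓ (W.map (Int.castRingHom ℚ)).j < 0 := by
  have hc : W.c₄ ≠ 0 := fun h => h2 (h ▸ dvd_zero _)
  have hj : (W.map (Int.castRingHom ℚ)).j = ((W.c₄ ^ 3 : ℤ) : ℚ) / ((W.Δ : ℤ) : ℚ) := by
    rw [WeierstrassCurve.j, Units.val_inv_eq_inv_val, coe_Δ', map_c₄, map_Δ, div_eq_inv_mul]
    simp
  rw [hj, padicValRat.div (Int.cast_ne_zero.2 (pow_ne_zero 3 hc)) (Int.cast_ne_zero.2 hΔ),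
    padicValRat.of_int, padicValRat.of_int]
  have h3 : padicValInt ℓ (W.c₄ ^ 3) = 0 :=
    padicValInt.eq_zero_of_not_dvd fun h =>
      h2 ((Nat.prime_iff_prime_int.1 hl.out).dvd_of_dvd_pow h)
  have h4 : 1 ≤ padicValInt ℓ W.Δ := by
    have h := (padicValInt_dvd_iff 1 W.Δ).1 (by rwa [pow_one])
    exact h.resolve_left hΔ
  rw [h3]
  omega

/-- Consecutive nonzero `p`-th powers differ by more than one. -/
lemma pow_sub_pow_ne_unit {p : ℕ} (hp : 2 ≤ p) (hodd : Odd p) {x y u : ℤ} (hx : x ≠ 0)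
    (hy : y ≠ 0) (hu : u = 1 ∨ u = -1) : x ^ p - y ^ p ≠ u := by
  suffices key : ∀ n : ℤ, 1 ≤ n → n ^ p + 1 < (n + 1) ^ p by
    have hmain : ∀ x y : ℤ, x ≠ 0 → y ≠ 0 → x ^ p - y ^ p ≠ 1 := by
      intro x y hx hy h
      have hlt : y < x := hodd.strictMono_pow.lt_iff_lt.1 (show y ^ p < x ^ p by linarith)
      rcases lt_or_gt_of_ne hy with hy0 | hy0
      · rcases lt_or_gt_of_ne hx with hx0 | hx0
        · have h1 := key (-x) (by omega)
          have h2 : (-x + 1) ^ p ≤ (-y) ^ p := pow_le_pow_left₀ (by omega) (by omega) p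
          rw [hodd.neg_pow] at h1 h2
          linarith
        · have h1 : (1 : ℤ) ≤ x ^ p := one_le_pow₀ (by omega)
          have h2 : (1 : ℤ) ≤ (-y) ^ p := one_le_pow₀ (by omega)
          rw [hodd.neg_pow] at h2
          linarith
      · have h1 := key y (by omega)
        have h2 : (y + 1) ^ p ≤ x ^ p := pow_le_pow_left₀ (by omega) (by omega) p
        linarith
    rcases hu with rfl | rfl
    · exact hmain x y hx hy
    · exact fun h => hmain y x hy hx (by linarith)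
  intro n hn
  obtain ⟨m, rfl⟩ : ∃ m, p = m + 1 := ⟨p - 1, by omega⟩
  have h1 : n ^ m < (n + 1) ^ m := pow_lt_pow_left₀ (by omega) (by omega) (by omega)
  have h2 : (1 : ℤ) ≤ n ^ m := one_le_pow₀ hn
  rw [pow_succ, pow_succ]
  nlinarith

/-- A Frey package has an odd bad prime different from `p`. -/
theorem exists_odd_bad_prime (P : FreyPackage) :
    ∃ ℓ : ℕ, ℓ.Prime ∧ ℓ ≠ 2 ∧ ℓ ≠ P.p ∧ (ℓ : ℤ) ∣ P.freyCurveInt.Δ := by
  by_contra hcon
  push Not at hcon
  have hall : ∀ x : ℤ, x ∣ P.a * P.b * P.c → ¬(2 : ℤ) ∣ x → ¬(P.p : ℤ) ∣ x → x.natAbs = 1 := by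
    intro x hx h2 hpx
    by_contra hne
    obtain ⟨q, hq, hqx⟩ := Nat.exists_prime_and_dvd hne
    have hqx' : (q : ℤ) ∣ x := Int.natCast_dvd.2 hqx
    rcases eq_or_ne q 2 with rfl | hq2
    · exact h2 (by exact_mod_cast hqx')
    rcases eq_or_ne q P.p with rfl | hqp
    · exact hpx hqx'
    refine hcon q hq hq2 hqp ?_
    have hdvd : (q : ℤ) ∣ P.freyCurveInt.Δ * 2 ^ 8 := by
      rw [Endgame.freyCurveInt_Δ]
      exact dvd_pow (hqx'.trans hx) (by have := P.hp5; omega)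
    refine ((Nat.prime_iff_prime_int.1 hq).dvd_mul.1 hdvd).resolve_right fun h => hq2 ?_
    exact (Nat.prime_dvd_prime_iff_eq hq Nat.prime_two).1 (Int.natCast_dvd_natCast.1
      (by exact_mod_cast (Nat.prime_iff_prime_int.1 hq).dvd_of_dvd_pow h))
  have hpp : Prime (P.p : ℤ) := Nat.prime_iff_prime_int.1 P.pp
  have h2a := Endgame.not_two_dvd_a P
  have h2c : ¬(2 : ℤ) ∣ P.c := fun h =>
    h2a (Int.prime_two.dvd_of_dvd_pow (n := P.p) (by
      rw [show P.a ^ P.p = P.c ^ P.p - P.b ^ P.p by linarith [P.hFLT]]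
      exact dvd_sub (dvd_pow h P.hp0) (dvd_pow (Endgame.two_dvd_b P) P.hp0)))
  have hor : P.a.natAbs = 1 ∨ P.c.natAbs = 1 := by
    by_cases hpa : (P.p : ℤ) ∣ P.a
    · exact Or.inr (hall P.c (dvd_mul_left _ _) h2c fun hpc =>
        hpp.not_unit ((Endgame.isCoprime_a_c P).isUnit_of_dvd' hpa hpc))
    · exact Or.inl (hall P.a ((dvd_mul_right _ _).trans (dvd_mul_right _ _)) h2a hpa)
  have hp2 : 2 ≤ P.p := P.pp.two_le
  rcases hor with h | h
  · have hu : P.a ^ P.p = 1 ∨ P.a ^ P.p = -1 := by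
      rcases Int.natAbs_eq_iff.1 h with e | e <;> simp [e, P.hp_odd.neg_pow]
    exact pow_sub_pow_ne_unit hp2 P.hp_odd P.hc0 P.hb0 hu (by linarith [P.hFLT])
  · have hu : P.c ^ P.p = 1 ∨ P.c ^ P.p = -1 := by
      rcases Int.natAbs_eq_iff.1 h with e | e <;> simp [e, P.hp_odd.neg_pow]
    exact pow_sub_pow_ne_unit hp2 P.hp_odd P.ha0 (neg_ne_zero.2 P.hb0) hu
      (by rw [P.hp_odd.neg_pow]; linarith [P.hFLT])

/-- The mod `p` representation of a Frey curve is irreducible, given the rank zero input. -/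
theorem frey_irreducible_of_rankZero (P : FreyPackage) [hp : Fact P.p.Prime]
    (hB : RankZeroInput P.p) :
    Affine.Point.GaloisRepIsIrreducible (K := Qbar) ℚ P.freyCurve P.p := by
  by_contra hred
  have := Endgame.freyCurve_isElliptic P
  obtain ⟨Q, hQ0, hQ, hσ⟩ := EC.Fifteen.exists_stable_point P.freyCurve P.p hred
  obtain ⟨ℓ, hl, hl2, hlp, hlΔ⟩ := exists_odd_bad_prime P
  have : Fact ℓ.Prime := ⟨hl⟩
  have : (P.freyCurveInt.map (Int.castRingHom ℚ)).IsElliptic := by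
    rw [Endgame.freyCurveInt_map]; infer_instance
  refine not_stable_of_rankZero hB hl2 hlp P.freyCurve ?_ Q hQ hQ0 fun σ => ?_
  · simp_rw [← Endgame.freyCurveInt_map P]
    exact padicValRat_j_neg _ (Endgame.freyCurveInt_Δ_ne_zero P) hlΔ
      (Endgame.isSemistableModel P ℓ hl hlΔ)
  · obtain ⟨k, -, -, hk⟩ := hσ σ
    exact ⟨k, hk⟩

end Fermat.Agent.Mazur
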