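/-
The Eisenstein descent: some Hecke operator which does not vanish on forms sends the rational
points of `J₀(N)` to torsion.
-/
import Fermat.Agent.Mazur.Descent.Glue
import Fermat.Agent.Mazur.Descent.Selmer
import Fermat.Agent.Mazur.Descent.HeckePrime
import Fermat.Agent.Mazur.Descent.Kummer
import Fermat.Agent.Mazur.Descent.Lattice
import Fermat.Agent.EichlerShimura.FrobTorsion
import Fermat.Agent.EichlerShimura.GaloisHecke
import Fermat.Agent.BadPrime.Torsion
import Fermat.Agent.Reduction.S37Assembly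
import Fermat.Agent.EichlerShimura.Inputs
import Fermat.Agent.S17
import Fermat.Agent.Mazur.NoStableLine

set_option autoImplicit false

noncomputable section

open CongruenceSubgroup ModularCurve
open scoped MatrixGroups

namespace Fermat.Agent.Mazur.Descent

open EichlerShimura (QZ torsionPts cuspRank galMatrix padicToRing heckeMatrix)

local notation "ℚ̄" => AlgebraicClosure ℚ
local notation "Γℚ" => (AlgebraicClosure ℚ ≃ₐ[ℚ] AlgebraicClosure ℚ)

variable {N : ℕ} [NeZero N]

/-- The coefficientwise `O`-combinations of good Hecke matrices. -/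
theorem adjoin_le_span_heckeMat {e : torsionPts N ≃+ Periods.cuspidalHoms ℤ (Gamma0 N) QZ}
    {Θ : CuspForm.heckeAlgebra N 2 (∅ : Set ℕ) →+*
      Matrix (Fin (cuspRank N)) (Fin (cuspRank N)) ℤ} (hΘ : IsHeckeIso e Θ)
    {O : Type} [CommRing O] {π : Matrix (Fin (cuspRank N)) (Fin (cuspRank N)) O}
    (hπ : π ∈ Algebra.adjoin O (Set.range fun i => (goodMatrix N i).map (Int.castRingHom O))) :
    π ∈ Submodule.span O ((fun t => (heckeMat Θ t).map (Int.castRingHom O)) ''
      (goodHecke N : Set HeckeAlg)) := by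
  have hmap1 : (1 : Matrix (Fin (cuspRank N)) (Fin (cuspRank N)) O) =
      (heckeMat Θ 1).map (Int.castRingHom O) := by
    rw [map_one, Matrix.map_one _ (map_zero _) (map_one _)]
  induction hπ using Algebra.adjoin_induction with
  | mem x hx =>
    obtain ⟨ℓ, rfl⟩ := hx
    refine Submodule.subset_span ⟨heckeGen ℓ.1, heckeGen_mem_goodHecke ℓ.1 ℓ.2, ?_⟩
    simp only [heckeMat_heckeGen hΘ]
    rfl
  | algebraMap o =>
    rw [Algebra.algebraMap_eq_smul_one, hmap1]
    exact Submodule.smul_mem _ o (Submodule.subset_span ⟨1, (goodHecke N).one_mem, rfl⟩)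
  | add x y _ _ hx hy => exact add_mem hx hy
  | mul x y hx0 hy0 hx hy =>
    clear hmap1 hx0 hy0
    induction hx using Submodule.span_induction with
    | mem a ha =>
      induction hy using Submodule.span_induction with
      | mem b hb =>
        obtain ⟨s, hs, rfl⟩ := ha
        obtain ⟨t, ht, rfl⟩ := hb
        refine Submodule.subset_span ⟨s * t, (goodHecke N).mul_mem hs ht, ?_⟩
        simp only [map_mul, Matrix.map_mul]
      | zero => rw [mul_zero]; exact zero_mem _
      | add u v _ _ hu hv => rw [mul_add]; exact add_mem hu hv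
      | smul c u _ hu => rw [mul_smul_comm]; exact Submodule.smul_mem _ c hu
    | zero => rw [zero_mul]; exact zero_mem _
    | add u v _ _ hu hv => rw [add_mul]; exact add_mem hu hv
    | smul c u _ hu => rw [smul_mul_assoc]; exact Submodule.smul_mem _ c hu

theorem galPadic_commute {e : torsionPts N ≃+ Periods.cuspidalHoms ℤ (Gamma0 N) QZ}
    {Θ : CuspForm.heckeAlgebra N 2 (∅ : Set ℕ) →+*
      Matrix (Fin (cuspRank N)) (Fin (cuspRank N)) ℤ} (hΘ : IsHeckeIso e Θ)
    (r : ℕ) [Fact r.Prime] {t : HeckeAlg} (ht : t ∈ goodHecke N) (σ : Γℚ) :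
    galPadic e r σ * (heckeMat Θ t).map (Int.castRingHom ℤ_[r]) =
      (heckeMat Θ t).map (Int.castRingHom ℤ_[r]) * galPadic e r σ := by
  letI := heckeModuleBar N
  haveI := EichlerShimura.smulCommClass_galois_heckeAlg N
  refine matrix_eq_of_forall_tatePt e r fun k z => ?_
  rw [← Matrix.mulVec_mulVec, ← Matrix.mulVec_mulVec, tatePt_galPadic, tatePt_heckeMat e r hΘ ht,
    tatePt_heckeMat e r hΘ ht, tatePt_galPadic]
  exact smul_comm σ t _

/-- The Hecke operators at good primes act on a rational torsion point by `1 + ℓ`. -/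
theorem heckeOperatorBar_fixed_torsion {r : ℕ} (hF : EichlerShimura.FrobeniusOnTorsion N r)
    {P : JZero N} (hP : ∀ σ : Γℚ, σ • P = P) (hk : ∃ k : ℕ, r ^ k • P = 0) (ℓ : Nat.Primes)
    (hℓ : ¬ (ℓ : ℕ) ∣ N * r) : heckeOperatorBar N ℓ P = (1 + (ℓ : ℕ)) • P := by
  obtain ⟨B, σ, hB, hσ⟩ := Galois.exists_valuationSubring_isFrobeniusAt ℓ.2
  have h := (hF ℓ ℓ.2 hℓ B hB).2 σ hσ P hk
  rw [hP σ, hP σ] at h
  rw [sub_add_eq_add_sub, sub_eq_zero] at h
  rw [add_nsmul, one_nsmul]
  exact h.symm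

theorem exists_rank_zero_operator (hN : N.Prime) (hN5 : 5 ≤ N)
    (hK : EichlerShimura.HasKummerIso N) (hcomm : HeckeOperatorsCommuteBar N)
    (hfg : AddGroup.FG ↥(FixedPoints.addSubgroup Γℚ (JZero N)))
    (r : Nat.Primes) (hr : (r : ℕ) ^ (padicValNat r 24 + 1) ∣ N - 1) :
    ∃ t : HeckeAlg, Immersion.formsAct N t ≠ 0 ∧ ∀ x : JZero N, (∀ σ : Γℚ, σ • x = x) →
      IsOfFinAddOrder (letI := heckeModuleBar N; t • x) := by
  letI := heckeModuleBar N
  haveI := EichlerShimura.smulCommClass_galois_heckeAlg N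
  haveI hr' : Fact (r : ℕ).Prime := ⟨r.2⟩
  have hrN : (r : ℕ) ≠ N := by
    intro h
    have hd : (r : ℕ) ∣ N - 1 := (dvd_pow_self _ (by omega)).trans hr
    rw [h] at hd
    have := Nat.le_of_dvd (by omega) hd
    omega
  have hrgood : ¬ (r : ℕ) ∣ N := fun h => hrN ((Nat.prime_dvd_prime_iff_eq r.2 hN).mp h)
  obtain ⟨A, hA⟩ := Galois.exists_valuationSubring_liesOverPrime (L := ℚ̄) r.2
  obtain ⟨F, hFrob⟩ := Galois.exists_isFrobeniusAt A r.2 hA
  obtain ⟨e, Θ, hΘ⟩ := exists_isHeckeIso hK hcomm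
  have hF : EichlerShimura.FrobeniusOnTorsion N r :=
    EichlerShimura.frobeniusOnTorsion_of_specializationExists hcomm
      (Reduction.specializationExists_JZero N r hcomm)
  obtain ⟨K, hKred, P, k, hPfix, hPk, hPK⟩ :=
    exists_isRedKernel_torsion N hN hcomm r hr A hA
  -- the component
  obtain ⟨w, hw⟩ := exists_tatePt_eq e r hPk
  set Kt := tateSubmodule e r K with hKt
  have hwK : ∀ z, w - ((r : ℕ) : ℤ_[r]) ^ k • z ∉ Kt := by
    intro z hz
    have h := (mem_tateSubmodule_iff e r).mp hz k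
    have h0 : tatePt e r k (((r : ℕ) : ℤ_[r]) ^ k • z) = 0 :=
      (tatePt_eq_zero_iff e r k _).mpr fun i => ⟨z i, rfl⟩
    rw [map_sub, h0, sub_zero, hw] at h
    exact hPK h
  have hgenT : ∀ (ℓ : Nat.Primes), ¬ (ℓ : ℕ) ∣ N → ∀ (j : ℕ) z,
      tatePt e r j (((heckeMatrix N ℓ).map (Int.castRingHom ℤ_[r])).mulVec z) =
        heckeOperatorBar N ℓ (tatePt e r j z) := by
    intro ℓ hℓ j z
    rw [← heckeMat_heckeGen hΘ, tatePt_heckeMat e r hΘ (heckeGen_mem_goodHecke ℓ hℓ)]
    exact heckeModuleBar_heckeGen_smul hcomm ℓ _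
  obtain ⟨O, i1, i2, i3, i4, i5, i6, hrO, hfin, c, v, hcong, heig, hvK, π, hπ, hπ0, hπker⟩ :=
    exists_component (goodMatrix N) (goodMatrix_comm N) (isReduced_adjoin_goodMatrix N)
      {ℓ | (ℓ.1 : ℕ) ≠ r} (fun ℓ => 1 + ((ℓ.1 : ℕ) : ℤ)) Kt
      (fun z hz => mem_tateSubmodule_of_smul e r hz) w k hwK (by
        intro ℓ hℓ i
        refine (tatePt_eq_zero_iff e r k _).mp ?_ i
        have hℓr : ¬ (ℓ.1 : ℕ) ∣ N * r := fun h => by
          rcases (Nat.Prime.dvd_mul ℓ.1.2).mp h with h | h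
          · exact ℓ.2 h
          · exact hℓ ((Nat.prime_dvd_prime_iff_eq ℓ.1.2 r.2).mp h)
        rw [map_sub, goodMatrix, hgenT ℓ.1 ℓ.2, hw,
          show ((1 + ((ℓ.1 : ℕ) : ℤ) : ℤ) : ℤ_[r]) = ((1 + (ℓ.1 : ℕ) : ℕ) : ℤ_[r]) by push_cast; rfl,
          tatePt_natCast_smul, hw,
          heckeOperatorBar_fixed_torsion hF hPfix ⟨k, hPk⟩ ℓ.1 hℓr, sub_self])
  have hv0 : v ≠ 0 := fun h => hvK (h ▸ zero_mem _)
  obtain ⟨χ, hχ, hχall⟩ := exists_char_of_eigenvector N hN Θ hΘ.rep c hv0 heig
  have hmemLat : ∀ u : Fin (cuspRank N) → O,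
      (∀ ℓ, ((goodMatrix N ℓ).map (Int.castRingHom O)).mulVec u = c ℓ • u) →
        u ∈ eigenLattice χ := by
    intro u hu
    rw [eigenLattice, EichlerShimura.mem_matrixJointKer]
    intro ℓ
    rw [Matrix.sub_mulVec, Matrix.smul_mulVec, Matrix.one_mulVec, ← hΘ.rep, hχall u hu, sub_self]
  obtain ⟨ρ, j, hjinj, hjrange, hjgal, hdet, hunr, hchar⟩ :=
    exists_lattice_rep e hΘ r hF hrO χ
  have hjmem : ∀ u, u ∈ eigenLattice χ → ∃ x, j x = u := fun u hu => by
    rw [← hjrange] at hu; exact hu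
  -- the line at `r`
  set φ := padicToRing hrO with hφ
  have hG : ∀ σ, galMatrix e r hrO σ = (galPadic e r σ).map φ :=
    galMatrix_eq_map_galPadic e r hrO
  set Vp : Submodule O ρ.V := Submodule.comap j (coeffSubmodule hrO Kt) with hVpdef
  have hVpsat : ∀ (a : O) (x : ρ.V), a ≠ 0 → a • x ∈ Vp → x ∈ Vp := fun a x ha hx => by
    rw [hVpdef, Submodule.mem_comap, map_smul] at hx
    exact mem_coeffSubmodule_of_smul hrO Kt (fun z hz => mem_tateSubmodule_of_smul e r hz)
      ha hx
  have hI : ∀ σ ∈ A.inertiaSubgroupIn ℚ, ∀ x : ρ.V, ρ.ρ σ x - x ∈ Vp := by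
    intro σ hσ x
    have h := mulVec_mem_coeffSubmodule hrO Kt (galPadic e r σ - 1) (fun z => by
      rw [hKt, mem_tateSubmodule_iff]
      intro n
      rw [Matrix.sub_mulVec, Matrix.one_mulVec, map_sub, tatePt_galPadic]
      exact hKred.inertia σ hσ _) (j x)
    rw [hVpdef, Submodule.mem_comap, map_sub, hjgal, hG]
    rwa [Matrix.map_sub _ (map_sub φ), Matrix.map_one _ (map_zero φ) (map_one φ),
      Matrix.sub_mulVec, Matrix.one_mulVec] at h
  have hD : ∀ σ ∈ A.decompositionSubgroup ℚ, ∀ x ∈ Vp, ρ.ρ σ x ∈ Vp := by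
    intro σ hσ x hx
    rw [hVpdef, Submodule.mem_comap, hjgal, hG]
    refine mulVec_mem_coeffSubmodule_of_stable hrO Kt _ (fun z hz => ?_) hx
    rw [hKt, mem_tateSubmodule_iff] at hz ⊢
    intro n
    rw [tatePt_galPadic]
    exact hKred.decomposition σ hσ _ (hz n)
  obtain ⟨x0, hx0⟩ := hjmem v (hmemLat v heig)
  have hVptop : Vp ≠ ⊤ := fun h => hvK (by
    have hx : x0 ∈ Vp := by rw [h]; exact Submodule.mem_top
    rwa [hVpdef, Submodule.mem_comap, hx0] at hx)
  have hVpbot : Vp ≠ ⊥ := fun h => by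
    obtain ⟨σ, hσ, hσdet⟩ := exists_mem_inertia_det_ne_one hdet A hA
    refine hσdet ?_
    have h1 : ρ.ρ σ = 1 := LinearMap.ext fun x => by
      have := hI σ hσ x
      rw [h, Submodule.mem_bot, sub_eq_zero] at this
      exact this
    rw [h1, map_one]
  obtain ⟨b, hb⟩ := exists_basis_of_saturated ρ.finrank_eq Vp hVpsat hVpbot hVptop
  set a : O := χ (Immersion.formsGen N r) with hadef
  have hrel : ∀ x : ρ.V, ρ.ρ F (ρ.ρ F x) - a • ρ.ρ F x + ((r : ℕ) : O) • x ∈ Vp := by
    intro x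
    set T : Matrix (Fin (cuspRank N)) (Fin (cuspRank N)) ℤ_[r] :=
      (heckeMatrix N r).map (Int.castRingHom ℤ_[r]) with hT
    have h := mulVec_mem_coeffSubmodule hrO Kt
      (galPadic e r F * galPadic e r F - T * galPadic e r F + ((r : ℕ) : ℤ_[r]) • 1) (fun z => by
        rw [hKt, mem_tateSubmodule_iff]
        intro n
        rw [Matrix.add_mulVec, Matrix.sub_mulVec, ← Matrix.mulVec_mulVec, ← Matrix.mulVec_mulVec,
          Matrix.smul_mulVec, Matrix.one_mulVec, map_add, map_sub, tatePt_galPadic,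
          tatePt_galPadic, hT, hgenT r hrgood, tatePt_galPadic, tatePt_natCast_smul]
        exact hKred.frobenius F hFrob _) (j x)
    have hTj : ((heckeMatrix N r).map (Int.castRingHom O)).mulVec (j (ρ.ρ F x)) =
        a • j (ρ.ρ F x) := by
      have hm : j (ρ.ρ F x) ∈ eigenLattice χ := by rw [← hjrange]; exact ⟨_, rfl⟩
      rw [eigenLattice, EichlerShimura.mem_matrixJointKer] at hm
      have := hm r
      rwa [Matrix.sub_mulVec, Matrix.smul_mulVec, Matrix.one_mulVec, sub_eq_zero] at this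
    rw [hVpdef, Submodule.mem_comap, map_add, map_sub, map_smul, map_smul, ← hTj, hjgal, hjgal,
      hG, intMap_eq_map_padic (r := (r : ℕ)) hrO]
    rw [Matrix.map_add _ (map_add φ), Matrix.map_sub _ (map_sub φ), Matrix.map_mul, Matrix.map_mul,
      Matrix.map_smul' _ _ _ (map_mul φ), map_natCast, Matrix.map_one _ (map_zero φ) (map_one φ),
      Matrix.add_mulVec, Matrix.sub_mulVec, ← Matrix.mulVec_mulVec, ← Matrix.mulVec_mulVec,
      Matrix.smul_mulVec, Matrix.one_mulVec] at h
    exact h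
  set α : O := b.repr (ρ.ρ F (b 1)) 1 with hαdef
  have hdecomp : ∀ x : ρ.V, x - b.repr x 1 • b 1 ∈ Vp := by
    intro x
    have hs := b.sum_repr x
    rw [Fin.sum_univ_two] at hs
    rw [hb, Submodule.mem_span_singleton]
    exact ⟨b.repr x 0, by conv_rhs => arg 1; rw [← hs]
                          abel⟩
  have hα : ∀ x : ρ.V, ρ.ρ F x - α • x ∈ Vp := by
    intro x
    have h1 := hD F hFrob.mem_decompositionSubgroup _ (hdecomp x)
    rw [map_sub, map_smul] at h1
    have h2 := Vp.smul_mem (b.repr x 1) (hdecomp (ρ.ρ F (b 1)))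
    have h3 := Vp.smul_mem α (hdecomp x)
    have := sub_mem (add_mem h1 h2) h3
    convert this using 1
    rw [← hαdef]
    module
  have hb1 : ∀ s : O, s • b 1 ∈ Vp → s = 0 := by
    intro s hs
    rw [hb, Submodule.mem_span_singleton] at hs
    obtain ⟨s', hs'⟩ := hs
    have := congrArg (fun y => b.repr y 1) hs'
    simpa using this.symm
  have hquad : α * α - a * α + ((r : ℕ) : O) = 0 := by
    refine hb1 _ ?_
    have h2 := hD F hFrob.mem_decompositionSubgroup _ (hα (b 1))
    rw [map_sub, map_smul] at h2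
    have h3 := Vp.smul_mem α (hα (b 1))
    have h4 := Vp.smul_mem a (hα (b 1))
    have := add_mem (sub_mem (sub_mem (hrel (b 1)) h2) h3) h4
    convert this using 1
    module
  obtain ⟨hne1, hne2⟩ := eigenvalue_ne N χ r hrgood
  have hα2 : α ^ 2 ≠ 1 := by
    intro h
    rcases (sq_eq_one_iff).mp h with h1 | h1
    · rw [h1] at hquad; exact hne1 (by linear_combination (-1 : O) * hquad)
    · rw [h1] at hquad; exact hne2 (by linear_combination hquad)
  have hα1 : α ≠ 1 := fun h => hα2 (by rw [h, one_pow])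
  -- unipotent at `N`
  have hunip : ρ.IsUnipotentOnInertiaAt N := by
    intro B hB σ hσ
    refine charpoly_eq_of_sub_one_sq ρ.finrank_eq _ ?_
    have hz : (galPadic e r σ - 1) * (galPadic e r σ - 1) = 0 :=
      matrix_eq_of_forall_tatePt e r fun n z => by
        rw [Matrix.zero_mulVec, map_zero, ← Matrix.mulVec_mulVec, Matrix.sub_mulVec,
          Matrix.one_mulVec, Matrix.sub_mulVec, Matrix.one_mulVec, Matrix.mulVec_sub, map_sub,
          map_sub, map_sub, tatePt_galPadic, tatePt_galPadic]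
        have hx : (r : ℕ) ^ n • tatePt e r n z = 0 := by
          rw [← tatePt_natCast_smul]
          exact (tatePt_eq_zero_iff e r n _).mpr fun i => ⟨z i, by simp⟩
        have := BadPrime.inertia_sub_sq_eq_zero hN hN5 r.2 hrN B hB hσ hx
        rw [← this, two_nsmul]
        abel
    have hm := congrArg (fun M : Matrix (Fin (cuspRank N)) (Fin (cuspRank N)) ℤ_[r] => M.map φ) hz
    simp only [Matrix.map_mul, Matrix.map_sub _ (map_sub φ), Matrix.map_one _ (map_zero φ) (map_one φ),
      Matrix.map_zero _ (map_zero φ), ← hG] at hm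
    refine LinearMap.ext fun x => hjinj ?_
    rw [Module.End.mul_apply, LinearMap.zero_apply, map_zero]
    simp only [LinearMap.sub_apply, Module.End.one_apply, map_sub, hjgal]
    have := congrArg (fun M => Matrix.mulVec M (j x)) hm
    simp only [Matrix.zero_mulVec, ← Matrix.mulVec_mulVec, Matrix.sub_mulVec, Matrix.one_mulVec,
      Matrix.mulVec_sub] at this
    rw [← this]
  -- residual constituents
  have hres := exists_residual_eigenvector r hrO ρ {N, (r : ℕ)} (by
    intro ℓ hℓ hℓS B hB σ hσ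
    rw [Finset.mem_insert, Finset.mem_singleton, not_or] at hℓS
    have hℓN : ¬ ℓ ∣ N := fun h => hℓS.1 ((Nat.prime_dvd_prime_iff_eq hℓ hN).mp h)
    refine ⟨χ (Immersion.formsGen N ⟨ℓ, hℓ⟩), ?_,
      hchar ⟨ℓ, hℓ⟩ hℓN hℓS.2 B hB σ hσ⟩
    have := hcong ⟨⟨ℓ, hℓ⟩, hℓN⟩ hℓS.2
    rw [← hχ] at this
    push_cast at this
    exact this)
  -- the image of `π`
  have hπspan := adjoin_le_span_heckeMat hΘ hπ
  have hπlat : ∀ u, π.mulVec u ∈ eigenLattice χ := fun u => hmemLat _ fun ℓ => by
    have := congrArg (fun M => Matrix.mulVec M u) (hπker ℓ)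
    simpa only [← Matrix.mulVec_mulVec, Matrix.zero_mulVec, Matrix.sub_mulVec, Matrix.smul_mulVec,
      Matrix.one_mulVec, sub_eq_zero] using this
  have hπgal : ∀ σ, π * galMatrix e r hrO σ = galMatrix e r hrO σ * π := by
    intro σ
    clear hπlat hπker hπ hπ0
    induction hπspan using Submodule.span_induction with
    | mem M hM =>
      obtain ⟨t, ht, rfl⟩ := hM
      dsimp only
      rw [hG, intMap_eq_map_padic (r := (r : ℕ)) hrO, ← hφ, ← Matrix.map_mul, ← Matrix.map_mul,
        galPadic_commute hΘ r ht]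
    | zero => rw [zero_mul, mul_zero]
    | add M M' _ _ h h' => rw [add_mul, mul_add, h, h']
    | smul o M _ h => rw [smul_mul_assoc, mul_smul_comm, h]
  obtain ⟨t, ht, ht0, htor⟩ := exists_hecke_torsion hΘ hfg hrO hfin π hπ0 hπspan (by
    intro x κ hκ
    choose cz hcz using fun σ => hjmem _ (hπlat (φ ∘ κ σ))
    have hsel : IsSelmer ρ N r A Vp cz := by
      refine ⟨⟨fun σ τ => hjinj ?_, fun n => ?_⟩, fun l hl hlN hlr B hB σ hσ => hjinj ?_,
        fun σ hσ => ?_⟩
      · rw [map_add, hcz, hjgal, hcz, hcz, hκ.map_mul, Matrix.mulVec_mulVec, ← hπgal,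
          ← Matrix.mulVec_mulVec, ← Matrix.mulVec_add]
        congr 1
        funext i
        simp only [Pi.add_apply, Function.comp_apply, map_add]
        congr 1
        rw [hG]
        exact RingHom.map_mulVec φ _ _ i
      · obtain ⟨L, hL, hfix⟩ := hκ.cont n
        refine ⟨L, hL, fun σ hσ => ?_⟩
        obtain ⟨ϖ, hϖ⟩ := IsDiscreteValuationRing.exists_irreducible O
        have hm : IsLocalRing.maximalIdeal O ^ n = Ideal.span {ϖ ^ n} := by
          rw [Irreducible.maximalIdeal_eq hϖ, Ideal.span_singleton_pow]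
        have hi : ∀ i, ∃ q, (φ ∘ κ σ) i = ϖ ^ n * q := fun i => by
          obtain ⟨q, hq⟩ := hfix σ hσ i
          refine Ideal.mem_span_singleton.mp (hm ▸ ?_)
          rw [Function.comp_apply, hq, map_mul, map_pow, map_natCast]
          exact Ideal.mul_mem_right _ _ (Ideal.pow_mem_pow hrO n)
        choose q hq using hi
        have hqv : φ ∘ κ σ = ϖ ^ n • q := funext hq
        obtain ⟨y, hy⟩ := hjmem _ (hπlat q)
        have : cz σ = ϖ ^ n • y := hjinj (by
          rw [hcz, map_smul, hy, hqv, Matrix.mulVec_smul])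
        rw [this]
        exact Submodule.smul_mem_smul (hm ▸ Ideal.mem_span_singleton_self _) Submodule.mem_top
      · rw [map_zero, hcz, hκ.eq_zero_of_inertia hcomm hl
          (fun h => hlN ((Nat.prime_dvd_prime_iff_eq hl hN).mp h)) hlr hB hσ,
          show φ ∘ (0 : Fin (cuspRank N) → ℤ_[r]) = 0 from funext fun _ => map_zero φ,
          Matrix.mulVec_zero]
      · rw [hVpdef, Submodule.mem_comap, hcz]
        clear hπlat hπgal hcz hπker hπ hπ0
        induction hπspan using Submodule.span_induction with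
        | mem M hM =>
          obtain ⟨t, ht, rfl⟩ := hM
          dsimp only
          rw [intMap_eq_map_padic (r := (r : ℕ)) hrO, map_mulVec_comp]
          exact Submodule.subset_span ⟨_, hκ.mem_tateSubmodule hΘ ht hKred hσ, rfl⟩
        | zero => rw [Matrix.zero_mulVec]; exact zero_mem _
        | add M M' _ _ h h' => rw [Matrix.add_mulVec]; exact add_mem h h'
        | smul o M _ h => rw [Matrix.smul_mulVec]; exact Submodule.smul_mem _ o h
    obtain ⟨o, y, ho, hoy⟩ := exists_smul_eq_coboundary N r hN hrN ρ hdet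
      (fun l hl hlN hlr => hunr l hl (fun h => hlN ((Nat.prime_dvd_prime_iff_eq hl hN).mp h)) hlr)
      hunip hres A hA Vp ⟨b, hb⟩ hI hD F hFrob α hα hα1 hα2 cz hsel
    refine ⟨o, ho, j y, fun σ => ?_⟩
    have := congrArg j (hoy σ)
    rwa [map_smul, hcz, coboundary, map_sub, hjgal] at this)
  exact ⟨t, fun h => ht0 (heckeMat_eq_zero_of_formsAct_eq_zero Θ h), htor⟩

end Fermat.Agent.Mazur.Descent

namespace Fermat.Agent.Mazur

/-- For `N = 11` or a prime `N ≥ 17` some Hecke operator, non-zero on forms, sends the rational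
points of `J₀(N)` to torsion. -/
theorem rankZeroInput (N : ℕ) [hN : Fact N.Prime] (h : N = 11 ∨ 17 ≤ N) : RankZeroInput N := by
  obtain ⟨r, hr⟩ := Descent.exists_prime_pow_dvd hN.out h
  exact Descent.exists_rank_zero_operator hN.out (by omega)
    (EichlerShimura.kummerIso_modular N) (EichlerShimura.heckeOperatorsCommuteBar N)
    (S17.result N hN.out (by omega)) r hr

end Fermat.Agent.Mazur
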